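import Mathlib
import Fermat.Agent.Conn.Red
import Fermat.Agent.Flat.Class4

/-!
# Reduction is injective on torsion of order prime to the residue characteristic
-/

set_option autoImplicit false
set_option linter.unusedSectionVars false

noncomputable section

namespace Fermat.Agent.RJ

open AlgebraicCurve IsDedekindDomain IntermediateField WithZero Module Fermat.Agent.FunField
open Fermat.Agent.Flat Fermat.Agent.Conn

section Hopf

variable {R G Ω : Type*} [CommRing R] [Field Ω] [Algebra R Ω] [Group G] [MulSemiringAction G Ω]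
variable {V : Type*} [AddCommGroup V] [DistribMulAction G V]
variable {A : ValuationSubring Ω}

/-- The kernel of reduction has no torsion prime to the residue characteristic. -/
theorem eq_zero_of_mem_red {H : Subalgebra R (V → Ω)} (hH : IsHopfOrder R G H)
    (hRA : ∀ r : R, algebraMap R Ω r ∈ A) (h0 : ∀ f ∈ H, ∃ r : R, algebraMap R Ω r = f 0)
    (hval : ∀ f ∈ H, ∀ w, f w ∈ A) {m : ℕ} (hm : A.valuation (m : Ω) = 1) {v : V}
    (hmv : m • v = 0) (hv : v ∈ red A H) : v = 0 := by
  obtain ⟨f₀, hf₀, h00, hmax⟩ := exists_min hH hRA h0 v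
  obtain ⟨β, hβ⟩ := newton hH hval hf₀ h00 hmax
  have h1 := hβ m
  rw [hmv, h00] at h1
  have hlt : A.valuation (f₀ v) < 1 := by
    have := hv f₀ hf₀ 0
    rwa [zero_add, h00, sub_zero] at this
  have h2 : A.valuation (∑ j ∈ Finset.Ico 2 (m + 1), (m.choose j : Ω) * (f₀ v ^ j * β j)) ≤
      A.valuation (f₀ v) ^ 2 := by
    refine Valuation.map_sum_le _ fun j hj => ?_
    rw [map_mul, map_mul, map_pow]
    have h3 : A.valuation (m.choose j : Ω) ≤ 1 := (A.valuation_le_one_iff _).mpr
      (natCast_mem A _)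
    have h4 : A.valuation (β j : Ω) ≤ 1 := (A.valuation_le_one_iff _).mpr (β j).2
    have h5 : A.valuation (f₀ v) ^ j ≤ A.valuation (f₀ v) ^ 2 :=
      pow_le_pow_right_of_le_one' hlt.le (Finset.mem_Ico.mp hj).1
    calc A.valuation (m.choose j : Ω) * (A.valuation (f₀ v) ^ j * A.valuation (β j : Ω))
        ≤ 1 * (A.valuation (f₀ v) ^ 2 * 1) := by gcongr
      _ = A.valuation (f₀ v) ^ 2 := by rw [one_mul, mul_one]
  have h3 : A.valuation (f₀ v) ≤ A.valuation (f₀ v) ^ 2 := by
    have h4 : A.valuation ((m : Ω) * f₀ v) ≤ A.valuation (f₀ v) ^ 2 := by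
      have h5 : (m : Ω) * f₀ v =
          - ∑ j ∈ Finset.Ico 2 (m + 1), (m.choose j : Ω) * (f₀ v ^ j * β j) := by
        rw [eq_neg_iff_add_eq_zero]
        exact h1.symm
      rw [h5, Valuation.map_neg]
      exact h2
    rwa [map_mul, hm, one_mul] at h4
  have h4 : f₀ v = 0 := by
    by_contra hne
    have h5 : 0 < A.valuation (f₀ v) := (Valuation.pos_iff _).mpr hne
    have h6 : A.valuation (f₀ v) ^ 2 < A.valuation (f₀ v) := by
      rw [pow_two]
      exact mul_lt_of_lt_one_left h5 hlt
    exact absurd h3 (not_le.mpr h6)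
  apply hH.sep
  intro f hf
  have h5 := hmax f hf
  rw [h4, map_zero, le_zero_iff, map_eq_zero, sub_eq_zero] at h5
  exact h5

end Hopf

end Fermat.Agent.RJ
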