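import Mathlib
import Fermat.Agent.RJ.Crit2

/-!
# Functions whose reduction is an `m`-th power
-/

set_option autoImplicit false
set_option linter.unusedSectionVars false

noncomputable section

namespace Fermat.Agent.RJ

open AlgebraicCurve IsDedekindDomain IntermediateField WithZero Module Fermat.Agent.FunField
open Fermat.Agent.Flat Fermat.Agent.Conn

universe u

section Away

variable {ι : Type*} [Fintype ι] [DecidableEq ι]
variable {Ω F : Type u} [Field Ω] [Field F] [Algebra Ω F]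
  {m : ℕ} {g C : ℤ} [IsAlgClosed Ω] [CharZero Ω] {t : F}

/-- Moving a divisible function away from given points. -/
theorem exists_away (ht : Sep Ω t) (hC : Crv Ω F g C) (hm : m ≠ 0) (x : ι → Place Ω F) {f : F}
    (hf : f ≠ 0) (hdiv : ∀ v : Place Ω F, (m : ℤ) ∣ v.ord f) :
    ∃ u : F, u ≠ 0 ∧ ∀ i, (x i).ord (f * u ^ m) = 0 := by
  classical
  have hD : ∀ v : Place Ω F, (m : ℤ) * dm (K := Ω) m f v = v.ord f := fun v => by
    rw [dm_apply hC]
    exact Int.mul_ediv_cancel' (hdiv v)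
  have hsm : m • dm (K := Ω) m f = dv f := by
    ext v
    rw [Finsupp.smul_apply, nsmul_eq_mul, hD, dv_apply (hC.fin f)]
  have hdgD : dg (dm (K := Ω) m f) = 0 := by
    have h1 := congrArg dg hsm
    rw [map_nsmul, hC.deg0 f hf, nsmul_eq_mul] at h1
    rcases mul_eq_zero.mp h1 with h2 | h2
    · exact absurd (by exact_mod_cast h2) hm
    · exact h2
  have hne := ht.nonempty
  have hInf : Infinite Ω := inferInstance
  have hpos : 0 < dg (pol (K := Ω) t) := by
    have := ht.fd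
    rw [ht.dg_pol]; exact_mod_cast finrank_pos
  let n : ℕ := (C + 1).toNat
  have hn : C + 1 ≤ n := Int.self_le_toNat _
  have hn0 : (0 : ℤ) ≤ n := Int.natCast_nonneg _
  obtain ⟨v₀⟩ := hne
  obtain ⟨a, -, ha0, ha⟩ := hC.exists_section (D := dm (K := Ω) m f + n • pol (K := Ω) t)
    (by rw [map_add, hdgD, map_nsmul, nsmul_eq_mul]; nlinarith)
    (insert v₀ (Finset.univ.image x)) (Finset.insert_nonempty _ _)
  obtain ⟨b, -, hb0, hb⟩ := hC.exists_section (D := n • pol (K := Ω) t)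
    (by rw [map_nsmul, nsmul_eq_mul]; nlinarith)
    (insert v₀ (Finset.univ.image x)) (Finset.insert_nonempty _ _)
  have hu : a / b ≠ 0 := div_ne_zero ha0 hb0
  refine ⟨a / b, hu, fun i => ?_⟩
  have hux : (x i).ord (a / b) = - dm (K := Ω) m f (x i) := by
    have hi : x i ∈ insert v₀ (Finset.univ.image x) :=
      Finset.mem_insert_of_mem (Finset.mem_image_of_mem _ (Finset.mem_univ i))
    rw [div_eq_mul_inv a b, (x i).ord_mul ha0 (inv_ne_zero hb0),
      (x i).ord_inv, ha _ hi, hb _ hi, Finsupp.add_apply]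
    ring
  rw [(x i).ord_mul hf (pow_ne_zero _ hu), ord_pow, hux, ← hD (x i)]
  ring

end Away

section Root

variable {Ω κ : Type*} [Field Ω] [Field κ] {A : ValuationSubring Ω} [IsAlgClosed Ω] [CharZero Ω]

/-- Roots of unity lift. -/
theorem exists_root_lift (r : A →+* κ) {m : ℕ} (hm : m ≠ 0) {ω : κ} (h : ω ^ m = 1) :
    ∃ ζ : A, ζ ^ m = 1 ∧ r ζ = ω := by
  haveI : NeZero m := ⟨hm⟩
  haveI : NeZero (m : Ω) := ⟨by exact_mod_cast hm⟩
  obtain ⟨ζ, hζ⟩ := HasEnoughRootsOfUnity.exists_primitiveRoot Ω m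
  have hmem : ζ ∈ A := by
    rw [← A.valuation_le_one_iff]
    by_contra hcon
    rw [not_le] at hcon
    have h1 : 1 < A.valuation (ζ ^ m) := by
      rw [map_pow]
      exact one_lt_pow' hcon hm
    rw [hζ.pow_eq_one, map_one] at h1
    exact lt_irrefl _ h1
  have hζ' : IsPrimitiveRoot (⟨ζ, hmem⟩ : A) m :=
    IsPrimitiveRoot.of_map_of_injective (f := A.subtype) (by exact hζ) Subtype.val_injective
  have h1 := Polynomial.X_pow_sub_one_eq_prod (Nat.pos_of_ne_zero hm) hζ'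
  have h2 := congrArg (fun P : Polynomial A => (P.map r).eval ω) h1
  simp only [Polynomial.map_sub, Polynomial.map_pow, Polynomial.map_X, Polynomial.map_one,
    Polynomial.eval_sub, Polynomial.eval_pow, Polynomial.eval_X, Polynomial.eval_one, h,
    sub_self, Polynomial.map_prod, Polynomial.eval_prod, Polynomial.map_C,
    Polynomial.eval_C] at h2
  obtain ⟨μ, hμ, hμω⟩ := Finset.prod_eq_zero_iff.mp h2.symm
  refine ⟨μ, (Polynomial.mem_nthRootsFinset (Nat.pos_of_ne_zero hm) (1 : A)).mp hμ, ?_⟩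
  exact (sub_eq_zero.mp hμω).symm

end Root

section Main

variable {Ω F : Type u} {κ Fb : Type*} [Field Ω] [Field κ] [Field F] [Field Fb] [Algebra Ω F]
  [Algebra κ Fb]
  {A : ValuationSubring Ω} {G : Type*} [Group G] [MulSemiringAction G Ω]
  {r : A →+* κ} {γ : G →* SemilinearAut Ω F}
  {W : ValuationSubring F} {ρ : W →+* Fb} {t : F} {tb : Fb}
  {m : ℕ} [IsAlgClosed Ω] [CharZero Ω] [IsAlgClosed κ]

/-- The property that the reduction is an `m`-th power is preserved. -/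
theorem red_pow (hG : GoodCrv r γ W ρ t tb) (hm : m ≠ 0) {f f' : W} (hf : ρ f ≠ 0)
    (hf' : ρ f' ≠ 0) {gb : Fb} (hgb : ρ f = gb ^ m) {y : F} (hy : y ≠ 0)
    (h : (f' : F) = f * y ^ m) : ∃ hb : Fb, ρ f' = hb ^ m := by
  obtain ⟨c, hc0, hcW, hcρ⟩ := hG.scale y hy
  set z : W := ⟨algebraMap Ω F c * y, hcW⟩ with hz
  have hcm : c ^ m ≠ 0 := pow_ne_zero _ hc0
  have hmF : algebraMap Ω F (c ^ m) * f' = f * z ^ m := by
    change _ = (f : F) * (algebraMap Ω F c * y) ^ m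
    rw [h, map_pow]
    ring
  have hA : c ^ m ∈ A := by
    by_contra hcon
    have h1 : (c ^ m)⁻¹ ∈ A := (A.mem_or_inv_mem (c ^ m)).resolve_left hcon
    have h2 : r ⟨_, h1⟩ = 0 := by
      by_contra hne
      have := hG.unit _ hne
      rw [inv_inv] at this
      exact hcon this
    have h3 := hG.ralg ⟨_, h1⟩ (hG.alg _ h1)
    rw [h2, map_zero] at h3
    have h4 : (⟨algebraMap Ω F (c ^ m)⁻¹, hG.alg _ h1⟩ : W) * (f * z ^ m) = f' := by
      apply Subtype.ext
      change algebraMap Ω F (c ^ m)⁻¹ * ((f : F) * (z : F) ^ m) = f'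
      have hmF' : algebraMap Ω F (c ^ m) * f' = (f : F) * (z : F) ^ m := hmF
      rw [← hmF', ← mul_assoc, ← map_mul, inv_mul_cancel₀ hcm, map_one, one_mul]
    have h5 := congrArg ρ h4
    rw [map_mul, h3, zero_mul] at h5
    exact hf' h5.symm
  have h1 : (⟨algebraMap Ω F (c ^ m), hG.alg _ hA⟩ : W) * f' = f * z ^ m := Subtype.ext hmF
  have h2 := congrArg ρ h1
  rw [map_mul, hG.ralg ⟨_, hA⟩ (hG.alg _ hA), map_mul, map_pow ρ, hgb, ← mul_pow] at h2
  obtain ⟨e, he⟩ := IsAlgClosed.exists_pow_nat_eq (r ⟨_, hA⟩) (Nat.pos_of_ne_zero hm)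
  have hr0 : r ⟨_, hA⟩ ≠ 0 := by
    intro h0
    rw [h0, map_zero, zero_mul] at h2
    have h3 : gb * ρ z ≠ 0 := by
      refine mul_ne_zero ?_ hcρ
      rintro rfl
      rw [zero_pow hm] at hgb
      exact hf hgb
    exact pow_ne_zero m h3 h2.symm
  have he0 : e ≠ 0 := by
    rintro rfl
    rw [zero_pow hm] at he
    exact hr0 he.symm
  have he0' : algebraMap κ Fb e ≠ 0 := (map_ne_zero _).mpr he0
  refine ⟨gb * ρ z / algebraMap κ Fb e, ?_⟩
  rw [div_pow, ← h2, ← map_pow, he, mul_div_cancel_left₀ _ ((map_ne_zero _).mpr hr0)]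

/-- **Divisible functions whose reduction is an `m`-th power are `m`-th powers.** -/
theorem pow_of_red (hG : GoodCrv r γ W ρ t tb) (hI : Inert G r) (htW : t ∈ W)
    (htb : ρ ⟨t, htW⟩ = tb) (hm : m ≠ 0) (hmr : r (m : A) ≠ 0) {S : Set F} (hS : S.Finite)
    (hSel : ∀ f : F, f ≠ 0 → (∀ v : Place Ω F, (m : ℤ) ∣ v.ord f) →
      ∃ f' ∈ S, ∃ u : F, u ≠ 0 ∧ f = f' * u ^ m)
    {f : W} (hf : ρ f ≠ 0) (hdiv : ∀ v : Place Ω F, (m : ℤ) ∣ v.ord (f : F))
    {gb : Fb} (hgb : ρ f = gb ^ m) : ∃ u : F, (f : F) = u ^ m := by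
  classical
  have hf0 : (f : F) ≠ 0 := by
    intro h
    apply hf
    have : f = 0 := Subtype.ext h
    rw [this, map_zero]
  obtain ⟨g, C₁, hC₁⟩ := hG.sep.exists_crv
  obtain ⟨gb', C₂, hC₂⟩ := hG.sepb.exists_crv
  obtain ⟨hdeg, hgg, hpos⟩ := hG.numerics hC₁ hC₂
  let C : ℤ := max 0 (max C₁ C₂)
  have hC : Crv Ω F g C := hC₁.mono ((le_max_left _ _).trans (le_max_right _ _))
  have hCb : Crv κ Fb g C := by
    rw [← hgg]
    exact hC₂.mono ((le_max_right _ _).trans (le_max_right _ _))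
  have hC0 : 0 ≤ C := le_max_left _ _
  let s : ℕ := (C + 1).toNat
  have hs' : C + 1 ≤ s := Int.self_le_toNat _
  have hs : C + 1 ≤ s * dg (pol (K := Ω) t) := by
    have : (0 : ℤ) ≤ s := Int.natCast_nonneg _
    nlinarith
  let N : ℕ := (4 * s * dg (pol (K := Ω) t) + 1).toNat
  have hN : 4 * s * dg (pol (K := Ω) t) + 1 ≤ N := Int.self_le_toNat _
  obtain ⟨x, xb, hP⟩ := hG.exists_pts hI hC hCb htW htb N
  let act := actV γ hC hm hG.base hP.fix
  have hfin := finite_cls (x := x) hC hm hS hSel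
  have hfin' : Finite (Additive (Zg m x hC hm ⧸ Bg m x hC hm)) := hfin
  have hcd := classData_out (x := x) hC hm hG.base hP.fix
  obtain ⟨Wv, Wb, hcrit, hWb⟩ := critData2 hG hI hC hCb hP hm hcd hs hC0
    (by rw [Fintype.card_fin]; omega)
  have hHopf := hcrit.isHopfOrder hI
  have hE := hP.E0 hG
  have hEb := hP.E0b hG
  -- move away from the points
  obtain ⟨u, hu, hux⟩ := exists_away hG.sep hC hm x hf0 hdiv
  set f₁ : F := f * u ^ m with hf₁
  have hf₁0 : f₁ ≠ 0 := mul_ne_zero hf0 (pow_ne_zero _ hu)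
  choose η hη using fun i => IsAlgClosed.exists_pow_nat_eq (evp (x i) f₁) (Nat.pos_of_ne_zero hm)
  have hadm : Adm m x f₁ η := by
    refine ⟨hf₁0, fun v => ?_, hux, fun i => (hη i).symm⟩
    rw [hf₁, v.ord_mul hf0 (pow_ne_zero _ hu), ord_pow]
    exact dvd_add (hdiv v) (dvd_mul_right _ _)
  obtain ⟨f', η', hV, w, hw, hwx, hff, -⟩ := exists_vadm hG hC hCb hP hm hadm
  have hf'y : (f' : F) = f * (u * w) ^ m := by
    rw [hff, hf₁, mul_pow]
    ring
  have hρ' : ρ f' ≠ 0 := hV.admb.ne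
  obtain ⟨hb, hhb⟩ := red_pow hG hm hf hρ' hgb (mul_ne_zero hu hw) hf'y
  have hhb0 : hb ≠ 0 := by
    rintro rfl
    rw [zero_pow hm] at hhb
    exact hρ' hhb
  have hhbx : ∀ i, (xb i).ord hb = 0 := by
    intro i
    have h1 := hV.admb.ord i
    rw [hhb, ord_pow] at h1
    rcases mul_eq_zero.mp h1 with h2 | h2
    · exact absurd (by exact_mod_cast h2) hm
    · exact h2
  have hrb := hCb.rat
  -- adjust the roots
  have hζ : ∀ i, ∃ ζ : A, ζ ^ m = 1 ∧ r (η' i * ζ) = evp (xb i) hb := by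
    intro i
    have h1 := hV.admb.pow i
    rw [hhb, evp_pow (hrb _) (mem_of_ord_nonneg _ (hhbx i).ge)] at h1
    have h2 : evp (xb i) hb ≠ 0 := (evp_ne_zero_iff (hrb _)
      (mem_of_ord_nonneg _ (hhbx i).ge)).mpr ⟨hhb0, hhbx i⟩
    have h3 : r (η' i) ≠ 0 := by
      intro h0
      rw [h0, zero_pow hm] at h1
      exact pow_ne_zero m h2 h1
    obtain ⟨ζ, hζ1, hζ2⟩ := exists_root_lift r hm (ω := evp (xb i) hb / r (η' i)) (by
      rw [div_pow, h1, div_self (pow_ne_zero _ h3)])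
    refine ⟨ζ, hζ1, ?_⟩
    rw [map_mul, hζ2]
    field_simp
  choose ζ hζ1 hζ2 using hζ
  let η₂ : Fin N → A := fun i => η' i * ζ i
  have hη₂ : (fun i => r (η₂ i)) = fun i => evp (xb i) hb := funext hζ2
  have hV₂ : VAdm r ρ t m x xb f' η₂ := by
    refine ⟨⟨hV.adm.ne, hV.adm.dvd, hV.adm.ord, fun i => ?_⟩, hV.reg, ?_⟩
    · rw [hV.adm.pow i]
      change _ = ((η' i * ζ i : A) : Ω) ^ m
      have : ((η' i * ζ i : A) : Ω) ^ m = ((η' i : A) : Ω) ^ m * ((ζ i ^ m : A) : Ω) := by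
        push_cast
        ring
      rw [this, hζ1]
      simp
    · refine ⟨hV.admb.ne, hV.admb.dvd, hV.admb.ord, fun i => ?_⟩
      change _ = r (η' i * ζ i) ^ m
      rw [hζ2, hhb, evp_pow (hrb _) (mem_of_ord_nonneg _ (hhbx i).ge)]
  have hη₂0 : ∀ i, (η₂ i : Ω) ≠ 0 := fun i => hV₂.adm.eta_ne hC hm i
  let p : Zg m x hC hm := ⟨(Units.mk0 (f' : F) hV₂.adm.ne, fun i => Units.mk0 (η₂ i : Ω) (hη₂0 i)),
    hV₂.adm⟩
  let v : Additive (Zg m x hC hm ⧸ Bg m x hC hm) := Additive.ofMul (QuotientGroup.mk p)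
  have hEv : Eqv m x (f' : F) (fun i => (η₂ i : Ω)) (v.toMul.out.1.1 : F)
      (fun i => (v.toMul.out.1.2 i : Ω)) := by
    have h1 := (mk_eq_iff hC hm p (Quotient.out (v.toMul))).mp (by
      exact (Quotient.out_eq' (v.toMul)).symm)
    exact h1
  have hone : VAdm r ρ t m x xb (1 : W) (1 : Fin N → A) := by
    refine ⟨Adm.one, ?_, ?_⟩
    · have := Reg.algebraMap (K := Ω) (F := F) (t := t) 1
      rwa [map_one] at this
    · rw [map_one]
      have : (fun i => r ((1 : Fin N → A) i)) = (1 : Fin N → κ) := funext fun i => map_one r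
      rw [this]
      exact Adm.one
  have hW1 := hWb v f' η₂ hV₂ hEv 1
  have hW0 := hWb 0 1 1 hone (hcd.zero.symm hC.rat) 1
  have hWeq : Wb 1 v = Wb 1 0 := by
    rw [hW1, hW0]
    have h1 : Eqv m xb (ρ f') (fun i => r (η₂ i)) (ρ 1) (fun i => r ((1 : Fin N → A) i)) := by
      refine ⟨hb, hhb0, hhbx, ?_, ?_⟩
      · rw [map_one, one_mul, hhb]
      · rw [hη₂]
        funext i
        rw [Pi.mul_apply, Pi.one_apply, map_one, one_mul]
    exact h1.Wz_eq hCb hm hEb hone.admb _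
  have hmv : m • v = 0 := by
    have h1 : (p ^ m : Zg m x hC hm) ∈ Bg m x hC hm := by
      refine ⟨f', hV₂.adm.ne, hV₂.adm.ord, ?_, ?_⟩
      · have : (((p ^ m : Zg m x hC hm) : Fˣ × (Fin N → Ωˣ)).1 : F) = (f' : F) ^ m := by
          simp [p]
        rw [this, one_mul]
      · funext i
        have : ((((p ^ m : Zg m x hC hm) : Fˣ × (Fin N → Ωˣ)).2 i : Ωˣ) : Ω) =
            (η₂ i : Ω) ^ m := by
          simp [p]
        rw [this, Pi.mul_apply, Pi.one_apply, one_mul, hV₂.adm.pow]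
    have h2 : (QuotientGroup.mk p : Zg m x hC hm ⧸ Bg m x hC hm) ^ m = 1 := by
      rw [← QuotientGroup.mk_pow]
      exact (QuotientGroup.eq_one_iff _).mpr h1
    change Additive.ofMul ((QuotientGroup.mk p : Zg m x hC hm ⧸ Bg m x hC hm) ^ m) = 0
    rw [h2]
    rfl
  have hnice := fun f hf => hcrit.nice hI (f := f) hf
  have hlt : ∀ a : A, r a = 0 → A.valuation (a : Ω) < 1 := by
    intro a ha
    refine lt_of_le_of_ne ((A.valuation_le_one_iff _).mpr a.2) fun h1 => ?_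
    have hu' : IsUnit a := (A.valuation_eq_one_iff a).mpr h1
    exact (hu'.map r).ne_zero ha
  have hred : v ∈ red A (critH G A Wv Wb) := by
    rw [mem_red_iff hHopf fun f hf w => (hnice f hf).mem w]
    intro f hf
    have h1 := (hnice f hf).const v 0 hWeq
    have h2 := hlt (⟨f v, (hnice f hf).mem v⟩ - ⟨f 0, (hnice f hf).mem 0⟩)
      (by rw [map_sub, h1, sub_self])
    exact h2
  have hv0 : v = 0 := by
    refine eq_zero_of_mem_red hHopf (fun a => a.2.1) (fun f hf => ?_)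
      (fun f hf w => (hnice f hf).mem w) ?_ hmv hred
    · refine ⟨⟨f 0, (hnice f hf).mem 0, fun g => ?_⟩, rfl⟩
      have h1 := (hnice f hf).equiv g 0
      have h2 : act.smul g 0 = 0 := act.smul_zero g
      have h3 : f (act.smul g 0) = g • f 0 := h1
      rw [h2] at h3
      exact h3.symm
    · have h1 : IsUnit (m : A) := hI.isUnit _ hmr
      have h2 := (A.valuation_eq_one_iff (m : A)).mp h1
      exact_mod_cast h2
  have h1 : (QuotientGroup.mk p : Zg m x hC hm ⧸ Bg m x hC hm) = 1 := hv0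
  obtain ⟨u₀, hu₀, -, h2, -⟩ := (QuotientGroup.eq_one_iff p).mp h1
  have h3 : (f' : F) = u₀ ^ m := by
    have : ((p.1.1 : Fˣ) : F) = f' := rfl
    rw [← this, h2, one_mul]
  refine ⟨u₀ / (u * w), ?_⟩
  rw [div_pow, ← h3, hf'y]
  field_simp

end Main

end Fermat.Agent.RJ
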