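import Mathlib
import Fermat.Agent.Flat.Conc6

/-!
# Good reduction of `X₀(N)`, with a description of the reduction map
-/

set_option autoImplicit false
set_option linter.unusedSectionVars false
set_option synthInstance.maxHeartbeats 400000
set_option maxHeartbeats 1600000

noncomputable section

namespace Fermat.Agent.RJ

open AlgebraicCurve IsDedekindDomain IntermediateField WithZero Module Fermat.Agent.FunField
open Fermat.Agent.Flat
open Polynomial (aeval)
open Fermat.Agent.LG Fermat.Agent.ModFun Fermat.Agent.Geo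
open Fermat.Agent.ESCore (HauptFn haupt2 haupt3 ιC)
open IsLocalRing ModularCurve

/-- The field of algebraic numbers. -/
local notation "Qb" => AlgebraicClosure ℚ
/-- The absolute Galois group. -/
local notation "GQ" => (AlgebraicClosure ℚ ≃ₐ[ℚ] AlgebraicClosure ℚ)

section

variable {A : ValuationSubring Qb} {q : ℕ}
  {p : ℕ} [Fact p.Prime] {κ : ℤ} {N : ℕ} [NeZero N]

theorem exists_goodCrv2 (hq : q.Prime) (hA : A.LiesOverPrime q) (hqN : ¬ q ∣ N) (hp : p ∣ N)
    {H : HauptFn p κ} {S : Set ℤ} {k : ℕ} {P : Polynomial ℤ} (hH : HautData H S k P)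
    (hS : ∀ c ∈ S, ∀ c' ∈ S, c ≠ c' →
      IsUnit ((c - c' : ℤ) : A.comap (algebraMap (KI A) Qb)))
    {G : Type*} [Group G] [MulSemiringAction G Qb] (γ : G →* SemilinearAut Qb (F0 Qb N))
    (hbase : ∀ (g : G) (a : Qb), SemilinearAut.baseAut (γ g) a = g • a)
    (hcoe : ∀ (g : G) (x : F0 Qb N), ((γ g • x : F0 Qb N) : LaurentSeries Qb) =
      coeffMap ((MulSemiringAction.toRingEquiv G Qb g : Qb ≃+* Qb) : Qb →+* Qb) x)
    (hfix : ∀ (g : G), ∀ x ∈ KI A, g • x = x)
    (hstab : ∀ (g : G), ∀ a ∈ A, g • a ∈ A)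
    (htriv : ∀ (g : G) (a : A), residue A ⟨g • (a : Qb), hstab g a a.2⟩ = residue A a) :
    ∃ (Fb : IntermediateField (ResidueField A) (LaurentSeries (ResidueField A)))
      (W : ValuationSubring (F0 Qb N)) (ρ : W →+* Fb) (t : F0 Qb N) (tb : Fb) (htW : t ∈ W),
      ρ ⟨t, htW⟩ = tb ∧ GoodCrv (residue A) γ W ρ t tb ∧
      ∀ (z : F0 Qb N) (hz : (z : LaurentSeries Qb) ∈ gA A), ∃ h : z ∈ W,
        ((ρ ⟨z, h⟩ : Fb) : LaurentSeries (ResidueField A)) = gAR ⟨_, hz⟩ := by
  have hac : IsAlgClosed (ResidueField A) := isAlgClosed_residueA hq hA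
  obtain ⟨d, e, h, M, hM⟩ := lift_of_level hq hA hqN hp hH hS
  have hgA : ∀ (g : G) (x : LaurentSeries Qb) (hx : x ∈ gA A),
      ∃ h : coeffMap ((MulSemiringAction.toRingEquiv G Qb g : Qb ≃+* Qb) : Qb →+* Qb) x ∈ gA A,
        gAR ⟨_, h⟩ = gAR ⟨x, hx⟩ := fun g x hx =>
    coeffMap_mem_gA (σ := MulSemiringAction.toRingEquiv G Qb g) (hstab g) (htriv g) hx
  refine ⟨h.Fb, h.red.val, h.red.ρv, tF H hp, h.tbb, h.tW, h.red.tρ, ?_, fun z hz => ⟨hz, rfl⟩⟩
  refine h.red.goodCrv (sep_tF H hp) (sep_tbb h) ⟨M, fun n hn zb hzb => ?_⟩ hbase ?_ ?_ ?_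
  · obtain ⟨z, hz1, hz2, zL, hzL⟩ := hM n hn zb hzb
    refine ⟨z, hz1, hz2, fun g => ?_⟩
    apply Subtype.ext
    rw [hcoe, hzL, coe_liftF]
    ext i
    exact hfix g _ ((zL : LaurentSeries (KI A)).coeff i).2
  · intro g z hz
    rw [mem_W0, hcoe]
    exact (hgA g _ hz).1
  · intro g z hz
    apply Subtype.ext
    change ρ0 A N _ = ρ0 A N _
    refine Eq.trans ?_ (hgA g _ z.2).2
    change gAR _ = _
    congr 1
    exact Subtype.ext (hcoe g _)
  · intro g
    apply Subtype.ext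
    rw [hcoe, coe_tF]
    exact coeffMap_tS _ p κ

/-- the elements of the reduced function field are reductions -/
theorem F0_le_of_red {Fb : IntermediateField (ResidueField A) (LaurentSeries (ResidueField A))}
    (h : ∀ (z : F0 Qb N) (hz : (z : LaurentSeries Qb) ∈ gA A), gAR ⟨_, hz⟩ ∈ Fb) :
    F0 (ResidueField A) N ≤ Fb := by
  rw [IntermediateField.adjoin_le_iff]
  rintro x ⟨d, hd0, hd, rfl⟩
  have h1 : qExpand Qb d (jqModC Qb) ∈ F0 Qb N := subset_adjoin _ _ ⟨d, hd0, hd, rfl⟩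
  have h2 : lA A (qExpand A d (jqModC A)) = qExpand Qb d (jqModC Qb) := by
    change coeffMap A.subtype (qExpand A d (jqModC A)) = _
    rw [coeffMap_qExpand, coeffMap_jqModC]
  have h3 : lK A (qExpand A d (jqModC A)) =
      qExpand (ResidueField A) d (jqModC (ResidueField A)) := by
    change coeffMap (residue A) (qExpand A d (jqModC A)) = _
    rw [coeffMap_qExpand, coeffMap_jqModC]
  have h4 : qExpand Qb d (jqModC Qb) ∈ gA A := by
    rw [← h2]
    exact lA_mem_gA _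
  have h5 := h ⟨_, h1⟩ h4
  have h6 : gAR (⟨qExpand Qb d (jqModC Qb), h4⟩ : gA A) =
      qExpand (ResidueField A) d (jqModC (ResidueField A)) := by
    rw [← h3, ← gAR_lA]
    congr 1
    exact Subtype.ext h2.symm
  change gAR (⟨qExpand Qb d (jqModC Qb), h4⟩ : gA A) ∈ Fb at h5
  rw [h6] at h5
  exact h5

end

end Fermat.Agent.RJ
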