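import Mathlib
import Fermat.Agent.RJ.Pow
import Fermat.Agent.RJ.Good2
import Fermat.Agent.Flat.SelFlat

/-!
# Good reduction of `X₀(N)`, with a description of the reduction map
-/

set_option autoImplicit false
set_option linter.unusedSectionVars false
set_option synthInstance.maxHeartbeats 400000
set_option maxHeartbeats 1000000

noncomputable section

namespace Fermat.Agent.RJ

open AlgebraicCurve IsDedekindDomain IntermediateField WithZero Module Fermat.Agent.FunField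
open Fermat.Agent.Flat Fermat.Agent.Conn
open Polynomial (aeval)
open Fermat.Agent.LG Fermat.Agent.ModFun Fermat.Agent.Geo
open Fermat.Agent.ESCore (HauptFn haupt2 haupt3 ιC)
open IsLocalRing ModularCurve

/-- The field of algebraic numbers. -/
local notation "Qb" => AlgebraicClosure ℚ
/-- The absolute Galois group. -/
local notation "GQ" => (AlgebraicClosure ℚ ≃ₐ[ℚ] AlgebraicClosure ℚ)

section

variable {A : ValuationSubring Qb} {q : ℕ}
  {p : ℕ} [Fact p.Prime] {κ : ℤ} {N : ℕ} [NeZero N]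

/-- The interface. -/
def RedPow (A : ValuationSubring Qb) (N m : ℕ) [NeZero N] : Prop :=
  ∃ Fb : IntermediateField (ResidueField A) (LaurentSeries (ResidueField A)),
    F0 (ResidueField A) N ≤ Fb ∧
    (∀ z : Fb, (∀ v : Place (ResidueField A) Fb, v.ord z = 0) →
      ∃ a : ResidueField A, algebraMap (ResidueField A) Fb a = z) ∧
    ∀ (f : F0 Qb N) (hf : (f : LaurentSeries Qb) ∈ gA A), gAR ⟨_, hf⟩ ≠ 0 →
      (∀ v : Place Qb (F0 Qb N), (m : ℤ) ∣ v.ord f) → ∀ gb ∈ Fb, gAR ⟨_, hf⟩ = gb ^ m →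
        ∃ u : F0 Qb N, f = u ^ m

theorem redPow_of (hq : q.Prime) (hA : A.LiesOverPrime q) (hqN : ¬ q ∣ N) (hp : p ∣ N)
    {H : HauptFn p κ} {S : Set ℤ} {k : ℕ} {P : Polynomial ℤ} (hH : HautData H S k P)
    (hS : ∀ c ∈ S, ∀ c' ∈ S, c ≠ c' →
      IsUnit ((c - c' : ℤ) : A.comap (algebraMap (KI A) Qb))) {m : ℕ} (hm : m ≠ 0)
    (hmr : residue A (m : A) ≠ 0) : RedPow A N m := by
  obtain ⟨S₀, hS₀, hSel⟩ := exists_finite_sel (N := N) (Nat.pos_of_ne_zero hm)
  let G := A.inertiaSubgroupIn ℚ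
  let γ : G →* SemilinearAut Qb (F0 Qb N) := (galF0 N).comp G.subtype
  have hI := inert_residue hq hA
  have hac : IsAlgClosed (ResidueField A) := isAlgClosed_residueA hq hA
  obtain ⟨Fb, W, ρ, t, tb, htW, htb, hG, hz⟩ := exists_goodCrv2 hq hA hqN hp hH hS γ
    (fun g a => rfl) (fun g x => rfl) (fun g x hx => mem_KI.mp hx g g.2) hI.stab
    (fun g a => hI.triv g a (hI.stab g a a.2))
  refine ⟨Fb, F0_le_of_red fun z hzA => ?_, fun z hv => ?_, fun f hf hf0 hdiv gb hgb hfg => ?_⟩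
  · obtain ⟨h1, h2⟩ := hz z hzA
    rw [← h2]
    exact (ρ ⟨z, h1⟩).2
  · obtain ⟨g, C, hC⟩ := hG.sepb.exists_crv
    exact hC.const z fun v => (hv v).ge
  · obtain ⟨h1, h2⟩ := hz f hf
    obtain ⟨u, hu⟩ := pow_of_red hG hI htW htb hm hmr hS₀ hSel (f := ⟨f, h1⟩) (gb := ⟨gb, hgb⟩)
      (fun h0 => hf0 (by rw [← h2, h0]; rfl)) hdiv (Subtype.ext (h2.trans hfg))
    exact ⟨u, hu⟩

theorem redPow (hq : q.Prime) (hA : A.LiesOverPrime q) (hqN : ¬ q ∣ N) (h : 2 ∣ N ∨ 3 ∣ N) {m : ℕ}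
    (hqm : ¬ q ∣ m) : RedPow A N m := by
  have hm : m ≠ 0 := by
    rintro rfl
    exact hqm (dvd_zero q)
  have hdvr := isDVR_KI hq hA
  have hNu : IsUnit ((N : ℕ) : A.comap (algebraMap (KI A) Qb)) := isUnit_natCast hq hA hqN
  have hmr : residue A (m : A) ≠ 0 := by
    rw [residue_ne_zero_iff_isUnit]
    have h1 : IsUnit ((m : ℕ) : A.comap (algebraMap (KI A) Qb)) := isUnit_natCast hq hA hqm
    obtain ⟨u, hu⟩ := h1.exists_right_inv
    have h2 := congrArg (fun x : A.comap (algebraMap (KI A) Qb) =>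
      algebraMap (KI A) Qb (x : KI A)) hu
    refine IsUnit.of_mul_eq_one ⟨algebraMap (KI A) Qb (u : KI A), u.2⟩ (Subtype.ext ?_)
    push_cast at h2 ⊢
    exact h2
  rcases h with h | h
  · exact redPow_of hq hA hqN h haut2 (sep2 h hNu) hm hmr
  · exact redPow_of hq hA hqN h haut3 (sep3 h hNu) hm hmr

end

end Fermat.Agent.RJ
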