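import Mathlib
import Fermat.Agent.RJ.Good3
import Fermat.Agent.Flat.Inj

/-!
# Injectivity of the reduction map on torsion prime to the residue characteristic
-/

set_option autoImplicit false
set_option linter.unusedSectionVars false
set_option synthInstance.maxHeartbeats 400000
set_option maxHeartbeats 1600000

noncomputable section

namespace Fermat.Agent.RJ

open AlgebraicCurve IsDedekindDomain IntermediateField WithZero Module Fermat.Agent.FunField
open Fermat.Agent.Flat Fermat.Agent.Conn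
open Fermat.Agent.LG Fermat.Agent.ModFun Fermat.Agent.Geo
open IsLocalRing ModularCurve

/-- The field of algebraic numbers. -/
local notation "Qb" => AlgebraicClosure ℚ

section

variable {A : ValuationSubring Qb} {p N : ℕ} [NeZero p] [NeZero N] {m : ℕ}

theorem ord_div {K F : Type*} [Field K] [Field F] [Algebra K F] (v : Place K F) {x y : F}
    (hx : x ≠ 0) (hy : y ≠ 0) : v.ord (x / y) = v.ord x - v.ord y := by
  rw [div_eq_mul_inv, v.ord_mul hx (inv_ne_zero hy), v.ord_inv]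
  ring

/-- the embedding of the function field of the reduction -/
def embk (A : ValuationSubring Qb) (p N : ℕ) [NeZero p] [NeZero N]
    {Fb : IntermediateField (ResidueField A) (LaurentSeries (ResidueField A))}
    (hle : F0 (ResidueField A) (p * N) ≤ Fb) : F0 (ResidueField A) N →+* Fb :=
  ((qExpand (ResidueField A) p).comp (F0 (ResidueField A) N).val.toRingHom).codRestrict
    Fb.toSubfield.toSubring fun x => hle (qExpand_mem_F0_of_dvd (m := p) dvd_rfl x.2)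

theorem coe_embk {Fb : IntermediateField (ResidueField A) (LaurentSeries (ResidueField A))}
    (hle : F0 (ResidueField A) (p * N) ≤ Fb) (x : F0 (ResidueField A) N) :
    ((embk A p N hle x : Fb) : LaurentSeries (ResidueField A)) =
      qExpand (ResidueField A) p (x : LaurentSeries (ResidueField A)) := rfl

theorem embk_algebraMap {Fb : IntermediateField (ResidueField A) (LaurentSeries (ResidueField A))}
    (hle : F0 (ResidueField A) (p * N) ≤ Fb) (a : ResidueField A) :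
    ∃ b : ResidueField A, embk A p N hle (algebraMap _ _ a) = algebraMap _ _ b := by
  refine ⟨a, Subtype.ext ?_⟩
  rw [coe_embk]
  change qExpand (ResidueField A) p (algebraMap (ResidueField A) (LaurentSeries _) a) =
    algebraMap (ResidueField A) (LaurentSeries _) a
  rw [algebraMap_laurentSeries_eq_single, qExpand_single, mul_zero]

/-- The main step. -/
theorem exists_pow [IsAlgClosed (ResidueField A)] (hR : RedPow A (p * N) m) (hp : p.Prime)
    (hm : m ≠ 0) {y₁ y₂ : LaurentSeries A} (hy₁ : lA A y₁ ∈ F0 Qb N) (hy₂ : lA A y₂ ∈ F0 Qb N)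
    (hk₁ : lK A y₁ ∈ F0 (ResidueField A) N) (hk₂ : lK A y₂ ∈ F0 (ResidueField A) N)
    (h₁ : lK A y₁ ≠ 0) (h₂ : lK A y₂ ≠ 0)
    (hdiv : ∀ v : Place Qb (F0 Qb N), (m : ℤ) ∣ v.ord (⟨lA A y₁, hy₁⟩ / ⟨lA A y₂, hy₂⟩ : F0 Qb N))
    {gb : F0 (ResidueField A) N} (hgb : gb ≠ 0)
    (hQ : ∀ Q : Place (ResidueField A) (F0 (ResidueField A) N),
      (m : ℤ) * Q.ord gb = Q.ord (⟨lK A y₁, hk₁⟩ : F0 (ResidueField A) N) -
        Q.ord (⟨lK A y₂, hk₂⟩ : F0 (ResidueField A) N)) :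
    ∃ u : F0 Qb N, (⟨lA A y₁, hy₁⟩ / ⟨lA A y₂, hy₂⟩ : F0 Qb N) = u ^ m := by
  obtain ⟨Fb, hle, hconst, hpow⟩ := hR
  set Y₁ : F0 Qb N := ⟨lA A y₁, hy₁⟩ with hY₁
  set Y₂ : F0 Qb N := ⟨lA A y₂, hy₂⟩ with hY₂
  set Z₁ : F0 (ResidueField A) N := ⟨lK A y₁, hk₁⟩ with hZ₁
  set Z₂ : F0 (ResidueField A) N := ⟨lK A y₂, hk₂⟩ with hZ₂
  have hlA : ∀ y : LaurentSeries A, lK A y ≠ 0 → lA A y ≠ 0 := by
    intro y hy h0
    apply hy
    have h1 : y = 0 := lA_injective A (by rw [h0, map_zero])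
    rw [h1, map_zero]
  have hY₁0 : Y₁ ≠ 0 := fun h => hlA _ h₁ (congrArg Subtype.val h)
  have hY₂0 : Y₂ ≠ 0 := fun h => hlA _ h₂ (congrArg Subtype.val h)
  have hZ₁0 : Z₁ ≠ 0 := fun h => h₁ (congrArg Subtype.val h)
  have hZ₂0 : Z₂ ≠ 0 := fun h => h₂ (congrArg Subtype.val h)
  have hgbm : gb ^ m ≠ 0 := pow_ne_zero _ hgb
  -- the unit
  set w : F0 (ResidueField A) N := Z₁ / (Z₂ * gb ^ m) with hw
  have hw0 : w ≠ 0 := div_ne_zero hZ₁0 (mul_ne_zero hZ₂0 hgbm)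
  have hwQ : ∀ Q : Place (ResidueField A) (F0 (ResidueField A) N), Q.ord w = 0 := by
    intro Q
    rw [hw, ord_div Q hZ₁0 (mul_ne_zero hZ₂0 hgbm), Q.ord_mul hZ₂0 hgbm, ord_pow]
    have := hQ Q
    linarith
  have hww : ∀ v : Place (ResidueField A) Fb, v.ord (embk A p N hle w) = 0 := by
    intro v
    have h1 : ∀ n : ℤ, n ∣ v.ord (embk A p N hle w) := fun n =>
      dvd_ord_map (embk A p N hle) (embk_algebraMap hle) hw0
        (fun Q => by rw [hwQ Q]; exact dvd_zero _) v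
    exact zero_dvd_iff.mp (h1 0)
  obtain ⟨a, ha⟩ := hconst _ hww
  obtain ⟨e, he⟩ := IsAlgClosed.exists_pow_nat_eq a (Nat.pos_of_ne_zero hm)
  -- the function on the upper level
  set f' : F0 Qb (p * N) := dg2 p N (Y₁ / Y₂) with hf'
  have hq1 : lK A (qExpand A p y₂) = qExpand (ResidueField A) p (lK A y₂) :=
    ModularCurve.coeffMap_qExpand _ _ _
  have hq2 : lK A (qExpand A p y₁) = qExpand (ResidueField A) p (lK A y₁) :=
    ModularCurve.coeffMap_qExpand _ _ _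
  have hq3 : lA A (qExpand A p y₂) = qExpand Qb p (lA A y₂) :=
    ModularCurve.coeffMap_qExpand _ _ _
  have hq4 : lA A (qExpand A p y₁) = qExpand Qb p (lA A y₁) :=
    ModularCurve.coeffMap_qExpand _ _ _
  have hne2 : lK A (qExpand A p y₂) ≠ 0 := by
    rw [hq1]
    exact (map_ne_zero _).mpr h₂
  have hne1 : lK A (qExpand A p y₁) ≠ 0 := by
    rw [hq2]
    exact (map_ne_zero _).mpr h₁
  have hfrel : lA A (qExpand A p y₂) * (f' : LaurentSeries Qb) = lA A (qExpand A p y₁) := by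
    rw [hf', coe_dg2, hq3, hq4, ← map_mul]
    congr 1
    have h3 : Y₂ * (Y₁ / Y₂) = Y₁ := by field_simp
    exact congrArg Subtype.val h3
  have hfA : (f' : LaurentSeries Qb) ∈ gA A := ⟨_, _, hne2, hfrel⟩
  have hfR : gAR (⟨(f' : LaurentSeries Qb), hfA⟩ : gA A) =
      lK A (qExpand A p y₁) / lK A (qExpand A p y₂) := gAR_eq hne2 hfrel
  have hval : lK A (qExpand A p y₁) / lK A (qExpand A p y₂) =
      ((algebraMap (ResidueField A) Fb e * embk A p N hle gb : Fb) :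
        LaurentSeries (ResidueField A)) ^ m := by
    have h3 : (algebraMap (ResidueField A) Fb e * embk A p N hle gb) ^ m * embk A p N hle Z₂ =
        embk A p N hle Z₁ := by
      rw [mul_pow, ← map_pow (algebraMap (ResidueField A) Fb), he, ha, ← map_pow, ← map_mul,
        ← map_mul, hw]
      congr 1
      field_simp
    have h4 := congrArg (fun x : Fb => (x : LaurentSeries (ResidueField A))) h3
    rw [div_eq_iff hne2, hq1, hq2]
    exact h4.symm
  obtain ⟨u, hu⟩ := hpow f' hfA (by rw [hfR]; exact div_ne_zero hne1 hne2)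
    (fun v => dvd_ord_map (dg2 p N) (dg2_algebraMap p N) (div_ne_zero hY₁0 hY₂0) hdiv v)
    _ (algebraMap (ResidueField A) Fb e * embk A p N hle gb).2 (hfR.trans hval)
  -- descend
  have hne : Y₁ / Y₂ ≠ 0 := div_ne_zero hY₁0 hY₂0
  have hinj := sel_dg2_injective p N hp hm
  let f₀ : SelZ Qb (F0 Qb N) m := ⟨Units.mk0 (Y₁ / Y₂) hne, hdiv⟩
  have h0 : Sel.map (dg2 p N) (dg2_algebraMap p N) m (Sel.mk f₀) = 0 := by
    rw [Sel.map_mk, Sel.mk_eq_zero]
    have hf'0 : f' ≠ 0 := (map_ne_zero _).mpr hne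
    refine ⟨u, ?_, hu⟩
    rintro rfl
    rw [zero_pow hm] at hu
    exact hf'0 hu
  have h1 : Sel.mk f₀ = 0 := hinj (by rw [h0, map_zero])
  obtain ⟨u₀, -, hu₀⟩ := Sel.mk_eq_zero.mp h1
  exact ⟨u₀, hu₀⟩

/-- **The reduction map is injective on torsion prime to the residue characteristic**, abstract
form. -/
theorem isPrincipal_of_red [IsAlgClosed (ResidueField A)] (hR : RedPow A (p * N) m) (hp : p.Prime)
    (hm : m ≠ 0) {E : IntermediateField Qb (LaurentSeries Qb)} (hE : E = F0 Qb N)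
    (r : Place Qb E → Place (ResidueField A) (F0 (ResidueField A) N))
    (hr : ∀ (y : LaurentSeries A) (hy : lA A y ∈ E) (hyk : lK A y ∈ F0 (ResidueField A) N),
      lK A y ≠ 0 → ∀ D : Divisor Qb E, (∀ P, D P = P.ord (⟨lA A y, hy⟩ : E)) →
        ∀ Q, Finsupp.mapDomain r D Q = Q.ord (⟨lK A y, hyk⟩ : F0 (ResidueField A) N))
    (hgen : Divisor.principal (K := Qb) (F := E) ≤ AddSubgroup.closure
      {D | ∃ (y : LaurentSeries A) (hy : lA A y ∈ E), lK A y ∈ F0 (ResidueField A) N ∧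
        lK A y ≠ 0 ∧ ∀ P, D P = P.ord (⟨lA A y, hy⟩ : E)})
    {D : Divisor Qb E} (hD : Divisor.IsPrincipal (m • D))
    (hrD : Divisor.IsPrincipal (Finsupp.mapDomain r D)) : Divisor.IsPrincipal D := by
  classical
  subst hE
  obtain ⟨f, hf, hfD⟩ := hD
  have hcl := hgen (show m • D ∈ Divisor.principal from ⟨f, hf, hfD⟩)
  have hlA : ∀ y : LaurentSeries A, lK A y ≠ 0 → lA A y ≠ 0 := by
    intro y hy h0
    apply hy
    have h1 : y = 0 := lA_injective A (by rw [h0, map_zero])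
    rw [h1, map_zero]
  have key : ∀ E' : Divisor Qb (F0 Qb N), E' ∈ AddSubgroup.closure
      {D : Divisor Qb (F0 Qb N) | ∃ (y : LaurentSeries A) (hy : lA A y ∈ F0 Qb N),
        lK A y ∈ F0 (ResidueField A) N ∧ lK A y ≠ 0 ∧
        ∀ P, D P = P.ord (⟨lA A y, hy⟩ : F0 Qb N)} →
      ∃ (y₁ y₂ : LaurentSeries A) (hy₁ : lA A y₁ ∈ F0 Qb N) (hy₂ : lA A y₂ ∈ F0 Qb N),
        lK A y₁ ∈ F0 (ResidueField A) N ∧ lK A y₂ ∈ F0 (ResidueField A) N ∧ lK A y₁ ≠ 0 ∧
        lK A y₂ ≠ 0 ∧ ∀ P, E' P = P.ord (⟨lA A y₁, hy₁⟩ : F0 Qb N) -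
          P.ord (⟨lA A y₂, hy₂⟩ : F0 Qb N) := by
    intro E' hE'
    have h1A : lA A (1 : LaurentSeries A) ∈ F0 Qb N := by rw [map_one]; exact one_mem _
    have h1K : lK A (1 : LaurentSeries A) ∈ F0 (ResidueField A) N := by
      rw [map_one]; exact one_mem _
    have h1K0 : lK A (1 : LaurentSeries A) ≠ 0 := by rw [map_one]; exact one_ne_zero
    have hord1 : ∀ P : Place Qb (F0 Qb N), P.ord (⟨lA A 1, h1A⟩ : F0 Qb N) = 0 := by
      intro P
      have : (⟨lA A 1, h1A⟩ : F0 Qb N) = 1 := Subtype.ext (map_one (lA A))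
      rw [this, P.ord_one]
    induction hE' using AddSubgroup.closure_induction with
    | mem E' hE' =>
      obtain ⟨y, hy, hyk, hy0, hP⟩ := hE'
      exact ⟨y, 1, hy, h1A, hyk, h1K, hy0, h1K0, fun P => by rw [hP, hord1, sub_zero]⟩
    | zero =>
      refine ⟨1, 1, h1A, h1A, h1K, h1K, h1K0, h1K0, fun P => ?_⟩
      rw [hord1, sub_zero]
      rfl
    | add E₁ E₂ _ _ h₁ h₂ =>
      obtain ⟨y₁, y₂, hy₁, hy₂, hk₁, hk₂, h01, h02, hP⟩ := h₁
      obtain ⟨z₁, z₂, hz₁, hz₂, hl₁, hl₂, h03, h04, hP'⟩ := h₂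
      have ha : lA A (y₁ * z₁) ∈ F0 Qb N := by rw [map_mul]; exact mul_mem hy₁ hz₁
      have hb : lA A (y₂ * z₂) ∈ F0 Qb N := by rw [map_mul]; exact mul_mem hy₂ hz₂
      refine ⟨y₁ * z₁, y₂ * z₂, ha, hb, by rw [map_mul]; exact mul_mem hk₁ hl₁,
        by rw [map_mul]; exact mul_mem hk₂ hl₂, by rw [map_mul]; exact mul_ne_zero h01 h03,
        by rw [map_mul]; exact mul_ne_zero h02 h04, fun P => ?_⟩
      have e1 : (⟨lA A (y₁ * z₁), ha⟩ : F0 Qb N) = ⟨lA A y₁, hy₁⟩ * ⟨lA A z₁, hz₁⟩ :=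
        Subtype.ext (map_mul (lA A) _ _)
      have e2 : (⟨lA A (y₂ * z₂), hb⟩ : F0 Qb N) = ⟨lA A y₂, hy₂⟩ * ⟨lA A z₂, hz₂⟩ :=
        Subtype.ext (map_mul (lA A) _ _)
      rw [e1, e2, P.ord_mul (fun h => hlA _ h01 (congrArg Subtype.val h))
        (fun h => hlA _ h03 (congrArg Subtype.val h)),
        P.ord_mul (fun h => hlA _ h02 (congrArg Subtype.val h))
        (fun h => hlA _ h04 (congrArg Subtype.val h)), Finsupp.add_apply, hP, hP']
      ring
    | neg E₁ _ h₁ =>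
      obtain ⟨y₁, y₂, hy₁, hy₂, hk₁, hk₂, h01, h02, hP⟩ := h₁
      refine ⟨y₂, y₁, hy₂, hy₁, hk₂, hk₁, h02, h01, fun P => ?_⟩
      rw [Finsupp.neg_apply, hP]
      ring
  obtain ⟨y₁, y₂, hy₁, hy₂, hk₁, hk₂, h01, h02, hP⟩ := key _ hcl
  have hY₁ : (⟨lA A y₁, hy₁⟩ : F0 Qb N) ≠ 0 := fun h => hlA _ h01 (congrArg Subtype.val h)
  have hY₂ : (⟨lA A y₂, hy₂⟩ : F0 Qb N) ≠ 0 := fun h => hlA _ h02 (congrArg Subtype.val h)
  obtain ⟨g, C, hC⟩ := (sep_F0 N).exists_crv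
  have hd : ∀ x : F0 Qb N, ∀ P, dv (K := Qb) x P = P.ord x := fun x P => dv_apply (hC.fin x) P
  have hDD : m • D = dv (⟨lA A y₁, hy₁⟩ : F0 Qb N) - dv (⟨lA A y₂, hy₂⟩ : F0 Qb N) := by
    ext P
    rw [hP P, Finsupp.sub_apply, hd, hd]
  obtain ⟨gb, hgb, hgbQ⟩ := hrD
  have hmap : m • Finsupp.mapDomain r D =
      Finsupp.mapDomain r (dv (⟨lA A y₁, hy₁⟩ : F0 Qb N)) -
        Finsupp.mapDomain r (dv (⟨lA A y₂, hy₂⟩ : F0 Qb N)) := by
    have h1 := congrArg (Finsupp.mapDomain.addMonoidHom r) hDD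
    rw [map_nsmul, map_sub] at h1
    exact h1
  obtain ⟨u, hu⟩ := exists_pow hR hp hm hy₁ hy₂ hk₁ hk₂ h01 h02
    (fun v => by
      rw [ord_div v hY₁ hY₂, ← hP v, Finsupp.smul_apply, nsmul_eq_mul]
      exact dvd_mul_right _ _) hgb
    (fun Q => by
      have h1 := congrArg (fun x : Divisor (ResidueField A) (F0 (ResidueField A) N) => x Q) hmap
      simp only [Finsupp.smul_apply, Finsupp.sub_apply, nsmul_eq_mul] at h1
      rw [← hgbQ Q, h1, hr y₁ hy₁ hk₁ h01 _ (hd _) Q, hr y₂ hy₂ hk₂ h02 _ (hd _) Q])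
  have hu0 : u ≠ 0 := by
    rintro rfl
    rw [zero_pow hm] at hu
    exact div_ne_zero hY₁ hY₂ hu
  refine ⟨u, hu0, fun P => ?_⟩
  have h1 := hP P
  rw [← ord_div P hY₁ hY₂, hu, ord_pow, Finsupp.smul_apply, nsmul_eq_mul] at h1
  exact mul_left_cancel₀ (by exact_mod_cast hm) h1

end

end Fermat.Agent.RJ
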